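import Fermat.Agent.LT.Asai.UpperBound.Product
import Fermat.Agent.LT.Asai.Restrict.Field
import Fermat.Agent.LT.Asai.Link
import Fermat.Agent.ChebotarevFull.IdealSeries
import Mathlib.NumberTheory.NumberField.Cyclotomic.PID

/-!
# The upper bound `∑_{P, k} b_k(P)² N P^(-ks) / k ≤ log (1 / (s - 1)) + O(1)`

The sum runs over good primes `P`, the `b_k` are the power sums of the normalised Hecke roots of a
cusp eigenform. Over `ℚ(ζ₃)` this gives the square bound `HasPlaceSquareBound`.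
-/

set_option autoImplicit false

noncomputable section

open Filter
open scoped NumberField Topology nonZeroDivisors
open NumberField (InfinitePlace)

namespace Fermat.Agent.LT.Asai.UpperBound

open Places

variable {F : Type*} [Field F] [NumberField F]

/-- `∑ N v⁻²` over finite sets of places is bounded. -/
theorem exists_sum_absNorm_rpow_le :
    ∃ D : ℝ, ∀ S : Finset (FinPlace F), ∑ v ∈ S, (Ideal.absNorm v.asIdeal : ℝ) ^ (-(2 : ℝ)) ≤
      D := by
  classical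
  obtain ⟨κ, C, h⟩ := Fermat.Agent.ChebotarevFull.exists_idealSeries_eq (F := F)
    Fermat.Agent.ChebotarevFull.onePeriodic
    (fun _ => by simp [Fermat.Agent.ChebotarevFull.onePeriodic])
  obtain ⟨hsum, -⟩ := h 2 one_lt_two le_rfl
  let e : FinPlace F → (Ideal (𝓞 F))⁰ :=
    fun v => ⟨v.asIdeal, mem_nonZeroDivisors_of_ne_zero v.ne_bot⟩
  have he : Function.Injective e := fun v w h =>
    IsDedekindDomain.HeightOneSpectrum.ext (congrArg Subtype.val h)
  exact ⟨_, fun S => (hsum.comp_injective he).sum_le_tsum S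
    fun v _ => Real.rpow_nonneg (Nat.cast_nonneg _) _⟩

variable [NumberField.IsTotallyComplex F] [Subsingleton (InfinitePlace F)]
  [IsPrincipalIdealRing (𝓞 F)] {U : Level F} {φ : Y U → ℂ}

/-- The partial Euler products of the Rankin factors. -/
theorem exists_prod_tsum_le (hφ : Whittaker.IsCuspEigen φ) (hne : ∃ y, φ y ≠ 0) {N : ℕ}
    (hN : 0 < N) (hgood : ∀ v : FinPlace F, (N : 𝓞 F) ∉ v.asIdeal → IsGoodAt U v)
    {lam : Ideal (𝓞 F) → ℂ} (hlam : IsHeckeEigenSystem N φ lam)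
    (hreal : ∀ v : FinPlace F, IsGoodPrime N v → (lam v.asIdeal).im = 0) :
    ∃ C : ℝ, 0 < C ∧ ∀ s : ℝ, 1 < s → s ≤ 2 → ∀ S : Finset (FinPlace F),
      (∀ v ∈ S, IsGoodPrime N v) →
      (∀ v ∈ S, Summable (factor lam v s)) ∧ ∏ v ∈ S, ∑' k, factor lam v s k ≤ C / (s - 1) := by
  classical
  obtain ⟨C, hC, h⟩ := exists_prod_range_le hφ hne hN hgood hlam hreal
  refine ⟨C, hC, fun s hs hs2 S hS => ?_⟩
  have h0 : ∀ v k, 0 ≤ factor lam v s k := fun v k =>
    mul_nonneg (sq_nonneg _) (pow_nonneg (Real.rpow_nonneg (Nat.cast_nonneg _) _) k)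
  have hsum : ∀ v ∈ S, Summable (factor lam v s) := fun v hv =>
    summable_of_sum_range_le (c := C / (s - 1)) (h0 v) fun K => by
      simpa using h s hs hs2 {v} (by simpa using hS v hv) K
  exact ⟨hsum, le_of_tendsto' (tendsto_finsetProd S fun v hv => (hsum v hv).hasSum.tendsto_sum_nat)
    fun K => h s hs hs2 S hS K⟩

/-- **The upper bound.** -/
theorem exists_sum_powSum_le (hφ : Whittaker.IsCuspEigen φ) (hne : ∃ y, φ y ≠ 0) {N : ℕ}
    (hN : 0 < N) (hgood : ∀ v : FinPlace F, (N : 𝓞 F) ∉ v.asIdeal → IsGoodAt U v)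
    {lam : Ideal (𝓞 F) → ℂ} (hlam : IsHeckeEigenSystem N φ lam)
    (hreal : ∀ v : FinPlace F, IsGoodPrime N v → (lam v.asIdeal).im = 0) :
    ∃ C : ℝ, ∀ s : ℝ, 1 < s → s ≤ 2 → ∀ S : Finset (FinPlace F),
      (∀ v ∈ S, IsGoodPrime N v) →
      (∀ v ∈ S, Summable fun k : ℕ =>
          powSum (asaiEig lam v) k ^ 2 * ((Ideal.absNorm v.asIdeal : ℝ) ^ (-s)) ^ k / k) ∧
        ∑ v ∈ S, ∑' k : ℕ,
          powSum (asaiEig lam v) k ^ 2 * ((Ideal.absNorm v.asIdeal : ℝ) ^ (-s)) ^ k / k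
          ≤ Real.log (1 / (s - 1)) + C := by
  obtain ⟨C, hC, h⟩ := exists_prod_tsum_le hφ hne hN hgood hlam hreal
  obtain ⟨D, hD⟩ := exists_sum_absNorm_rpow_le (F := F)
  refine ⟨Real.log C + 2 * D, fun s hs hs2 S hS => ?_⟩
  obtain ⟨hsum, hprod⟩ := h s hs hs2 S hS
  set x : FinPlace F → ℝ := fun v => (Ideal.absNorm v.asIdeal : ℝ) ^ (-s)
  have hx0 : ∀ v, 0 ≤ x v := fun v => Real.rpow_nonneg (Nat.cast_nonneg _) _
  have hx : ∀ v, x v ≤ 1 / 2 := fun v =>
    (rpow_neg_le_inv (one_lt_absNorm v) hs.le).trans (by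
      rw [one_div]
      exact inv_anti₀ two_pos (by exact_mod_cast one_lt_absNorm v))
  have hkey : ∀ v ∈ S, HasSum (fun k : ℕ => powSum (asaiEig lam v) k ^ 2 * x v ^ k / k)
      (Real.log (∑' k, factor lam v s k) - Real.log (1 - x v ^ 2)) := fun v hv =>
    hasSum_powSum_sq (hx0 v) (by linarith [hx v]) (hsum v hv)
  refine ⟨fun v hv => (hkey v hv).summable, ?_⟩
  rw [Finset.sum_congr rfl fun v hv => (hkey v hv).tsum_eq, Finset.sum_sub_distrib]
  have hpos : ∀ v ∈ S, 1 ≤ ∑' k, factor lam v s k := fun v hv => by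
    refine le_trans ?_ ((hsum v hv).le_tsum 0 fun k _ =>
      mul_nonneg (sq_nonneg _) (pow_nonneg (hx0 v) k))
    simp [factor, heckeSeq]
  have h1 : ∑ v ∈ S, Real.log (∑' k, factor lam v s k) ≤ Real.log (1 / (s - 1)) + Real.log C := by
    rw [← Real.log_prod fun v hv => (zero_lt_one.trans_le (hpos v hv)).ne',
      ← Real.log_mul (one_div_ne_zero (by linarith)) hC.ne', one_div_mul_eq_div]
    exact Real.log_le_log (Finset.prod_pos fun v hv => zero_lt_one.trans_le (hpos v hv)) hprod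
  have h2 : ∀ v ∈ S, -Real.log (1 - x v ^ 2) ≤ 2 * (Ideal.absNorm v.asIdeal : ℝ) ^ (-(2 : ℝ)) := by
    intro v _
    refine (neg_log_one_sub_sq_le (hx0 v) (hx v)).trans (mul_le_mul_of_nonneg_left ?_ two_pos.le)
    rw [← Real.rpow_natCast (x v) 2, ← Real.rpow_mul (Nat.cast_nonneg _)]
    exact Real.rpow_le_rpow_of_exponent_le (Nat.one_le_cast.2 (one_lt_absNorm v).le)
      (by push_cast; linarith)
  have h3 := (Finset.sum_le_sum h2).trans_eq (Finset.mul_sum _ _ _).symm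
  rw [Finset.sum_neg_distrib] at h3
  have := hD S
  linarith

/-- **The upper bound over `ℚ(ζ₃)`**, at the primes prime to `3 N`. -/
theorem exists_sum_powSum_le_eisField {N : ℕ} (hN : 0 < N)
    {φ : Y (Level.principal EisField N hN) → ℂ} (hφ : IsSphericalCuspForm φ)
    (hne : ∃ y, φ y ≠ 0) {lam : Ideal (𝓞 EisField) → ℂ} (hlam : IsHeckeEigenSystem N φ lam)
    (hreal : ∀ 𝔭 : Ideal (𝓞 EisField), 𝔭.IsPrime → 𝔭 ≠ ⊥ → (N : 𝓞 EisField) ∉ 𝔭 →
      (lam 𝔭).im = 0) :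
    ∃ C : ℝ, ∀ s : ℝ, 1 < s → s ≤ 2 → ∀ S : Finset (FinPlace EisField),
      (∀ v ∈ S, (N : 𝓞 EisField) ∉ v.asIdeal ∧ (3 : 𝓞 EisField) ∉ v.asIdeal) →
      (∀ v ∈ S, Summable fun k : ℕ =>
          powSum (asaiEig lam v) k ^ 2 * ((Ideal.absNorm v.asIdeal : ℝ) ^ (-s)) ^ k / k) ∧
        ∑ v ∈ S, ∑' k : ℕ,
          powSum (asaiEig lam v) k ^ 2 * ((Ideal.absNorm v.asIdeal : ℝ) ^ (-s)) ^ k / k
          ≤ Real.log (1 / (s - 1)) + C := by
  have : IsPrincipalIdealRing (𝓞 EisField) := IsCyclotomicExtension.Rat.three_pid EisField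
  obtain ⟨C, h⟩ := exists_sum_powSum_le hφ.cuspEigen hne hN
    (fun v hv => isGoodAt_principal hN hv) hlam
    (fun v hv => hreal v.asIdeal v.isPrime v.ne_bot hv.1)
  exact ⟨C, fun s hs hs2 S hS => h s hs hs2 S fun v hv =>
    ⟨(hS v hv).1, Whittaker.not_differentIdeal_le_three v (hS v hv).2⟩⟩

/-- **The square bound** at the places not dividing a multiple `M` of `3` and `N`. -/
theorem exists_square_bound {N M : ℕ} (hN : 0 < N) (hNM : N ∣ M) (h3 : 3 ∣ M)
    {φ : Y (Level.principal EisField N hN) → ℂ} (hφ : IsSphericalCuspForm φ)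
    (hne : ∃ y, φ y ≠ 0) {lam : Ideal (𝓞 EisField) → ℂ} (hlam : IsHeckeEigenSystem N φ lam)
    (hreal : ∀ 𝔭 : Ideal (𝓞 EisField), 𝔭.IsPrime → 𝔭 ≠ ⊥ → (N : 𝓞 EisField) ∉ 𝔭 →
      (lam 𝔭).im = 0) :
    HasPlaceSquareBound lam M := by
  obtain ⟨C, h⟩ := exists_sum_powSum_le_eisField hN hφ hne hlam hreal
  refine ⟨C, fun s hs S hS => le_trans (le_of_eq (Finset.sum_congr rfl fun v _ => ?_))
    (h s hs.1 hs.2 S fun v hv => ?_).2⟩
  · exact tsum_congr fun k => by rw [sq]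
  · obtain ⟨c, hc⟩ := hNM
    obtain ⟨d, hd⟩ := h3
    exact ⟨fun hm => hS v hv (by rw [hc, Nat.cast_mul]; exact Ideal.mul_mem_right _ _ hm),
      fun hm => hS v hv (by
        rw [hd, Nat.cast_mul]; exact Ideal.mul_mem_right _ _ (by exact_mod_cast hm))⟩

end Fermat.Agent.LT.Asai.UpperBound
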