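import Fermat.Agent.LT.Asai.LocalFactor
import Fermat.Agent.LT.Whittaker.Hecke
import Mathlib.Analysis.SpecialFunctions.Complex.LogBounds

/-!
# The local Rankin factor `∑_k h_k² x^k` and its logarithm

If `∑_k h_k(a)² x^k` converges it equals `(1 + x) / ((1 - x) (1 - (a² - 2) x + x²))`, and
`∑_k b_k² x^k / k = log (∑_k h_k² x^k) - log (1 - x²)` for the power sums `b_k = α^k + α⁻¹^k`,
`a = α + α⁻¹`.
-/

set_option autoImplicit false

noncomputable section

namespace Fermat.Agent.LT.Asai.UpperBound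

/-- The Hecke coefficients in normalised form. -/
theorem heckeCoeff_eq {q : ℝ} (hq : 0 < q) (a : ℝ) (k : ℕ) :
    Whittaker.heckeCoeff (q : ℂ) ((a * Real.sqrt q : ℝ) : ℂ) k
      = ((heckeSeq a k / Real.sqrt q ^ k : ℝ) : ℂ) := by
  have hs : Real.sqrt q ^ 2 = q := Real.sq_sqrt hq.le
  have hs0 : Real.sqrt q ≠ 0 := (Real.sqrt_pos.mpr hq).ne'
  induction k using Nat.twoStepInduction with
  | zero => simp [Whittaker.heckeCoeff, heckeSeq]
  | one =>
    rw [Whittaker.heckeCoeff, heckeSeq, ← Complex.ofReal_div]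
    congr 1
    field_simp
    linear_combination a * hs
  | more k h0 h1 =>
    rw [Whittaker.heckeCoeff, h0, h1, heckeSeq, ← Complex.ofReal_mul, ← Complex.ofReal_sub,
      ← Complex.ofReal_div]
    congr 1
    rw [pow_succ, pow_succ]
    field_simp
    linear_combination (a * heckeSeq a (k + 1) - heckeSeq a k) * Real.sqrt q ^ k * hs

/-- The closed form of the local factor, with the sign of its denominator. -/
theorem localFactor {a x : ℝ} (hx0 : 0 ≤ x) (hx1 : x < 1)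
    (hs : Summable fun k => heckeSeq a k ^ 2 * x ^ k) :
    0 < (1 - x) * (1 - (a ^ 2 - 2) * x + x ^ 2) ∧
      ∑' k, heckeSeq a k ^ 2 * x ^ k
        = (1 + x) / ((1 - x) * (1 - (a ^ 2 - 2) * x + x ^ 2)) := by
  have h := tsum_heckeSeq_mul a a x (by simpa only [← sq] using hs)
  simp only [← sq] at h
  have hD : (∑' k, heckeSeq a k ^ 2 * x ^ k) * ((1 - x) * (1 - (a ^ 2 - 2) * x + x ^ 2)) = 1 + x :=
    mul_left_cancel₀ (sub_ne_zero.2 hx1.ne') (by linear_combination h)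
  have hH1 : 1 ≤ ∑' k, heckeSeq a k ^ 2 * x ^ k := by
    have := hs.le_tsum 0 fun j _ => mul_nonneg (sq_nonneg _) (pow_nonneg hx0 j)
    simpa [heckeSeq] using this
  have hDpos : 0 < (1 - x) * (1 - (a ^ 2 - 2) * x + x ^ 2) := by
    refine (pos_iff_pos_of_mul_pos ?_).1 (zero_lt_one.trans_le hH1)
    rw [hD]; linarith
  exact ⟨hDpos, by rw [eq_div_iff hDpos.ne']; exact hD⟩

theorem summable_mono {a x y : ℝ} (hy0 : 0 ≤ y) (hyx : y ≤ x)
    (hs : Summable fun k => heckeSeq a k ^ 2 * x ^ k) :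
    Summable fun k => heckeSeq a k ^ 2 * y ^ k :=
  Summable.of_nonneg_of_le (fun k => mul_nonneg (sq_nonneg _) (pow_nonneg hy0 k))
    (fun k => mul_le_mul_of_nonneg_left (pow_le_pow_left₀ hy0 hyx k) (sq_nonneg _)) hs

/-- The roots are inside the unit disc where the series converges. -/
theorem exists_roots {a x : ℝ} (hx0 : 0 ≤ x) (hx1 : x < 1)
    (hs : Summable fun k => heckeSeq a k ^ 2 * x ^ k) :
    ∃ α β : ℂ, α + β = (a : ℂ) ∧ α * β = 1 ∧ ‖α ^ 2 * x‖ < 1 ∧ ‖β ^ 2 * x‖ < 1 := by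
  have hnx : ∀ γ : ℂ, ‖γ ^ 2 * (x : ℂ)‖ = ‖γ‖ ^ 2 * x := fun γ => by
    rw [norm_mul, norm_pow, Complex.norm_real, Real.norm_eq_abs, abs_of_nonneg hx0]
  rcases le_or_gt (a ^ 2) 4 with ha | ha
  · set r := Real.sqrt (1 - a ^ 2 / 4)
    have hr : r ^ 2 = 1 - a ^ 2 / 4 := Real.sq_sqrt (by linarith)
    refine ⟨⟨a / 2, r⟩, ⟨a / 2, -r⟩, ?_, ?_, ?_, ?_⟩
    · apply Complex.ext <;> simp
    · apply Complex.ext <;> simp <;> first | linear_combination hr | ring1
    all_goals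
      rw [hnx, ← Complex.normSq_eq_norm_sq, Complex.normSq_mk,
        show a / 2 * (a / 2) + _ = (1 : ℝ) by linear_combination hr, one_mul]
      exact hx1
  · set r := Real.sqrt (a ^ 2 - 4)
    have hr : r ^ 2 = a ^ 2 - 4 := Real.sq_sqrt (by linarith)
    have key : ∀ γ : ℝ, γ ^ 2 - a * γ + 1 = 0 → γ ^ 2 * x < 1 := by
      intro γ hγ
      by_contra hc
      push Not at hc
      have hγ0 : γ ≠ 0 := fun h => by rw [h] at hγ; norm_num at hγ
      have hy : (γ ^ 2)⁻¹ ≤ x := by rw [inv_le_iff_one_le_mul₀' (by positivity)]; exact hc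
      have h := (localFactor (inv_nonneg.2 (sq_nonneg γ)) (hy.trans_lt hx1)
        (summable_mono (inv_nonneg.2 (sq_nonneg γ)) hy hs)).1
      have h0 : 1 - (a ^ 2 - 2) * (γ ^ 2)⁻¹ + ((γ ^ 2)⁻¹) ^ 2 = 0 := by
        field_simp
        linear_combination (γ ^ 2 + a * γ + 1) * hγ
      rw [h0, mul_zero] at h
      exact lt_irrefl _ h
    refine ⟨(((a + r) / 2 : ℝ) : ℂ), (((a - r) / 2 : ℝ) : ℂ), ?_, ?_, ?_, ?_⟩
    · push_cast; ring
    · rw [← Complex.ofReal_mul, show (a + r) / 2 * ((a - r) / 2) = 1 by linear_combination -hr / 4,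
        Complex.ofReal_one]
    all_goals
      rw [hnx, Complex.norm_real, Real.norm_eq_abs, sq_abs]
      refine key _ ?_
      linear_combination hr / 4

/-- **The logarithm of the local factor.** -/
theorem hasSum_powSum_sq {a x : ℝ} (hx0 : 0 ≤ x) (hx1 : x < 1)
    (hs : Summable fun k => heckeSeq a k ^ 2 * x ^ k) :
    HasSum (fun k : ℕ => powSum a k ^ 2 * x ^ k / k)
      (Real.log (∑' k, heckeSeq a k ^ 2 * x ^ k) - Real.log (1 - x ^ 2)) := by
  obtain ⟨hD, hH⟩ := localFactor hx0 hx1 hs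
  obtain ⟨α, β, hab, hp, hα, hβ⟩ := exists_roots hx0 hx1 hs
  have hxn : ‖(x : ℂ)‖ < 1 := by rwa [Complex.norm_real, Real.norm_eq_abs, abs_of_nonneg hx0]
  have h := Complex.hasSum_re (((Complex.hasSum_taylorSeries_neg_log hα).add
    (Complex.hasSum_taylorSeries_neg_log hβ)).add
      ((Complex.hasSum_taylorSeries_neg_log hxn).mul_left 2))
  have hfun : (fun k : ℕ => powSum a k ^ 2 * x ^ k / k) = fun k : ℕ =>
      ((α ^ 2 * (x : ℂ)) ^ k / k + (β ^ 2 * (x : ℂ)) ^ k / k + 2 * ((x : ℂ) ^ k / k)).re := by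
    funext k
    have e : ((powSum a k ^ 2 * x ^ k / k : ℝ) : ℂ)
        = (α ^ 2 * (x : ℂ)) ^ k / k + (β ^ 2 * (x : ℂ)) ^ k / k + 2 * ((x : ℂ) ^ k / k) := by
      push_cast
      rw [ofReal_powSum a hab hp]
      have hk : α ^ k * β ^ k = 1 := by rw [← mul_pow, hp, one_pow]
      simp only [div_eq_mul_inv, mul_pow, ← pow_mul, mul_comm 2 k]
      rw [pow_mul, pow_mul]
      linear_combination 2 * (x : ℂ) ^ k * ((k : ℂ))⁻¹ * hk
    rw [← e, Complex.ofReal_re]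
  rw [hfun]
  convert h using 1
  have hq : ((1 - (a ^ 2 - 2) * x + x ^ 2 : ℝ) : ℂ) = (1 - α ^ 2 * x) * (1 - β ^ 2 * x) := by
    push_cast
    linear_combination ((α + β + a) * (x : ℂ)) * hab -
      (2 * (x : ℂ) + (α * β + 1) * (x : ℂ) ^ 2) * hp
  have h1x : 0 < 1 - x := by linarith
  have hqpos : 0 < 1 - (a ^ 2 - 2) * x + x ^ 2 := (pos_iff_pos_of_mul_pos hD).1 h1x
  have hne : 1 - α ^ 2 * (x : ℂ) ≠ 0 ∧ 1 - β ^ 2 * (x : ℂ) ≠ 0 := by
    rw [← mul_ne_zero_iff, ← hq, Complex.ofReal_ne_zero]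
    exact hqpos.ne'
  simp only [Complex.add_re, Complex.neg_re, Complex.log_re, Complex.mul_re, Complex.re_ofNat,
    Complex.im_ofNat, zero_mul, sub_zero]
  rw [← Complex.ofReal_one, ← Complex.ofReal_sub, Complex.norm_real, Real.norm_eq_abs,
    abs_of_pos h1x, Complex.ofReal_one, ← neg_add,
    ← Real.log_mul (norm_ne_zero_iff.2 hne.1) (norm_ne_zero_iff.2 hne.2), ← norm_mul, ← hq,
    Complex.norm_real, Real.norm_eq_abs, abs_of_pos hqpos, hH,
    Real.log_div (by linarith) hD.ne', Real.log_mul h1x.ne' hqpos.ne',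
    show 1 - x ^ 2 = (1 - x) * (1 + x) by ring, Real.log_mul h1x.ne' (by linarith)]
  ring

/-- `-log (1 - x²) ≤ 2 x²` for `x ≤ 1/2`. -/
theorem neg_log_one_sub_sq_le {x : ℝ} (hx0 : 0 ≤ x) (hx : x ≤ 1 / 2) :
    -Real.log (1 - x ^ 2) ≤ 2 * x ^ 2 := by
  have hpos : 0 < 1 - x ^ 2 := by nlinarith
  have h1 := Real.one_sub_inv_le_log_of_pos hpos
  have h2 : (1 - x ^ 2)⁻¹ ≤ 1 + 2 * x ^ 2 := by
    rw [inv_le_iff_one_le_mul₀ hpos]
    nlinarith [mul_nonneg (sq_nonneg x) (show (0 : ℝ) ≤ 1 - 2 * x ^ 2 by nlinarith)]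
  linarith

end Fermat.Agent.LT.Asai.UpperBound
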