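import Fermat.Agent.LT.Whittaker.Parseval
import Mathlib.Analysis.Complex.ExponentialBounds

/-!
# The mean square of the Whittaker function over dyadic shells

For a field with one complex place, Parseval bounds `∑ ‖W ξ‖²` over `R ≤ |ξ| < 2 R` uniformly in
`R`, so the Dirichlet series `∑ |N ξ|^(1-s) ‖W ξ‖²` is `O (1 / (s - 1))`.
-/

set_option autoImplicit false

noncomputable section

open MeasureTheory Set
open NumberField (InfinitePlace)
open scoped ComplexConjugate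

namespace Fermat.Agent.LT.Asai.UpperBound

open Whittaker

theorem besselK_anti {A B : ℝ} (hA : 0 < A) (hAB : A ≤ B) : besselK B ≤ besselK A := by
  refine setIntegral_mono_on (integrableOn_besselK (hA.trans_le hAB)) (integrableOn_besselK hA)
    measurableSet_Ioi fun r _ => Real.exp_le_exp.2 ?_
  nlinarith [Real.one_le_cosh r]

variable {F : Type*} [Field F] [NumberField F] [NumberField.IsTotallyComplex F] {U : Level F}
  {φ : Y U → ℂ}

/-- Parseval as a bound. -/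
theorem exists_sum_normSq_bessel_le (hφ : IsCuspEigen φ) (c : GLFin F ⧸ U.toSubgroup) :
    ∃ C : ℝ, 0 ≤ C ∧ ∀ t : InfinitePlace F → ℝ, (∀ w, 0 < t w) → ∀ T : Finset Fˣ,
      ∑ ξ ∈ T, ‖whit φ (glIncl F (dia ξ) • c)‖ ^ 2 * bessel (ξ : F) t ^ 2 ≤ C := by
  obtain ⟨B, hB⟩ := hφ.bounded
  obtain ⟨b, hb⟩ := exists_stab_basis c
  refine ⟨B ^ 2, sq_nonneg B, fun t ht T => ?_⟩
  have hI := Complex.hasSum_re (hasSum_parseval hφ hφ hb hb ht)
  have e : ∀ ξ : Fˣ, (whit φ (glIncl F (dia ξ) • c) * conj (whit φ (glIncl F (dia ξ) • c)) *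
      ((bessel (ξ : F) t ^ 2 : ℝ) : ℂ)).re
      = ‖whit φ (glIncl F (dia ξ) • c)‖ ^ 2 * bessel (ξ : F) t ^ 2 := fun ξ => by
    rw [Complex.mul_conj, ← Complex.ofReal_mul, Complex.ofReal_re, Complex.normSq_eq_norm_sq]
  simp only [e] at hI
  refine (sum_le_hasSum T (fun ξ _ => mul_nonneg (sq_nonneg _) (sq_nonneg _)) hI).trans
    ((Complex.re_le_norm _).trans ?_)
  have hvol := volume_box (ι := Fin (Module.finrank ℚ F))
  refine (norm_setIntegral_le_of_norm_le_const (C := B ^ 2)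
    (by rw [hvol]; exact ENNReal.one_lt_top) fun u _ => ?_).trans ?_
  · rw [norm_mul, Complex.norm_conj, sq]
    exact mul_le_mul (hB _) (hB _) (norm_nonneg _)
      ((norm_nonneg _).trans (hB (ptAt (boxEmb b u) t, c)))
  · simp [measureReal_def, hvol]

variable [Subsingleton (InfinitePlace F)]

/-- The mean square over a shell is bounded. -/
theorem exists_shell_le (hφ : IsCuspEigen φ) (c : GLFin F ⧸ U.toSubgroup) (w : InfinitePlace F) :
    ∃ C : ℝ, 0 ≤ C ∧ ∀ R : ℝ, 0 < R → ∀ T : Finset Fˣ,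
      (∀ ξ ∈ T, R ≤ w (ξ : F) ∧ w (ξ : F) ≤ 2 * R) →
      ∑ ξ ∈ T, ‖whit φ (glIncl F (dia ξ) • c)‖ ^ 2 ≤ C := by
  obtain ⟨B, hB0, hB⟩ := exists_sum_normSq_bessel_le hφ c
  set κ : ℝ := 1 / 2 * besselK (4 * Real.pi)
  have hκ : 0 < κ := mul_pos one_half_pos (besselK_pos (by positivity))
  refine ⟨B / κ ^ 2, by positivity, fun R hR T hT => ?_⟩
  rw [le_div_iff₀ (pow_pos hκ 2), Finset.sum_mul]
  refine le_trans (Finset.sum_le_sum fun ξ hξ => ?_)
    (hB (fun _ => 1 / (2 * R)) (fun _ => by positivity) T)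
  refine mul_le_mul_of_nonneg_left (pow_le_pow_left₀ hκ.le ?_ 2) (sq_nonneg _)
  obtain ⟨h1, h2⟩ := hT ξ hξ
  rw [bessel, Fintype.prod_subsingleton _ w]
  set A := w (ξ : F) * (1 / (2 * R))
  have hA1 : 1 / 2 ≤ A := by
    show 1 / 2 ≤ w (ξ : F) * (1 / (2 * R))
    rw [mul_one_div, le_div_iff₀ (by positivity)]; linarith
  have hA2 : A ≤ 1 := by
    show w (ξ : F) * (1 / (2 * R)) ≤ 1
    rw [mul_one_div, div_le_one (by positivity)]; linarith
  have hA0 : 0 < A := by linarith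
  exact mul_le_mul hA1 (besselK_anti (by positivity) (by nlinarith [Real.pi_pos]))
    (besselK_pos (by positivity)).le hA0.le

theorem one_sub_four_rpow_ge {u : ℝ} (hu0 : 0 < u) (hu1 : u ≤ 1) :
    u / 2 ≤ 1 - (4 : ℝ) ^ (-u) := by
  have hlog : 1 ≤ Real.log 4 := by
    rw [show (4 : ℝ) = 2 * 2 by norm_num, Real.log_mul two_ne_zero two_ne_zero]
    have := Real.log_two_gt_d9
    linarith
  have h1 : 1 + u ≤ (4 : ℝ) ^ u := by
    rw [Real.rpow_def_of_pos (by norm_num)]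
    nlinarith [Real.add_one_le_exp (Real.log 4 * u)]
  have h2 : (4 : ℝ) ^ (-u) ≤ (1 + u)⁻¹ := by
    rw [Real.rpow_neg (by norm_num)]
    exact inv_anti₀ (by linarith) h1
  have h3 : (1 + u)⁻¹ ≤ 1 - u / 2 := by
    rw [inv_le_iff_one_le_mul₀ (by linarith)]
    nlinarith
  linarith

/-- The series `∑ |N ξ|^(1-s) ‖W ξ‖²` over `|ξ| ≥ 1` is `O (1 / (s - 1))`. -/
theorem exists_sum_rpow_le (hφ : IsCuspEigen φ) (c : GLFin F ⧸ U.toSubgroup) (w : InfinitePlace F) :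
    ∃ C : ℝ, 0 ≤ C ∧ ∀ s : ℝ, 1 < s → s ≤ 2 → ∀ T : Finset Fˣ, (∀ ξ ∈ T, 1 ≤ w (ξ : F)) →
      ∑ ξ ∈ T, (w (ξ : F) ^ 2) ^ (-(s - 1)) * ‖whit φ (glIncl F (dia ξ) • c)‖ ^ 2
        ≤ C / (s - 1) := by
  classical
  obtain ⟨B, hB0, hB⟩ := exists_shell_le hφ c w
  refine ⟨2 * B, by positivity, fun s hs hs2 T hT => ?_⟩
  set u := s - 1
  have hu0 : 0 < u := by simp [u]; linarith
  have hgap := one_sub_four_rpow_ge hu0 (by simp [u]; linarith)
  set r : ℝ := (4 : ℝ) ^ (-u)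
  have hr0 : 0 ≤ r := Real.rpow_nonneg (by norm_num) _
  have hr1 : r < 1 := by linarith
  let j : Fˣ → ℕ := fun ξ => Nat.log 2 ⌊w (ξ : F)⌋₊
  have hj : ∀ ξ ∈ T, (2 : ℝ) ^ j ξ ≤ w (ξ : F) ∧ w (ξ : F) ≤ 2 * 2 ^ j ξ := by
    intro ξ hξ
    have h0 : ⌊w (ξ : F)⌋₊ ≠ 0 := (Nat.floor_pos.2 (hT ξ hξ)).ne'
    constructor
    · exact (by exact_mod_cast Nat.pow_log_le_self 2 h0 :
        ((2 : ℝ) ^ j ξ ≤ (⌊w (ξ : F)⌋₊ : ℝ))).trans (Nat.floor_le (by linarith [hT ξ hξ]))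
    · have h1 : ⌊w (ξ : F)⌋₊ + 1 ≤ 2 ^ (j ξ + 1) := Nat.lt_pow_succ_log_self one_lt_two _
      calc w (ξ : F) ≤ (⌊w (ξ : F)⌋₊ : ℝ) + 1 := (Nat.lt_floor_add_one _).le
        _ ≤ ((2 ^ (j ξ + 1) : ℕ) : ℝ) := by exact_mod_cast h1
        _ = 2 * 2 ^ j ξ := by push_cast; ring
  rw [← Finset.sum_fiberwise_of_maps_to (t := T.image j) fun ξ hξ => Finset.mem_image_of_mem j hξ]
  calc ∑ n ∈ T.image j, ∑ ξ ∈ T with j ξ = n,
        (w (ξ : F) ^ 2) ^ (-u) * ‖whit φ (glIncl F (dia ξ) • c)‖ ^ 2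
      ≤ ∑ n ∈ T.image j, r ^ n * B := by
        refine Finset.sum_le_sum fun n _ => le_trans (Finset.sum_le_sum fun ξ hξ => ?_)
          (le_of_eq_of_le (Finset.mul_sum _ _ _).symm (mul_le_mul_of_nonneg_left
            (hB ((2 : ℝ) ^ n) (by positivity) _ fun ξ hξ => ?_) (pow_nonneg hr0 n)))
        · obtain ⟨hξT, rfl⟩ := Finset.mem_filter.1 hξ
          refine mul_le_mul_of_nonneg_right ?_ (sq_nonneg _)
          rw [show r ^ j ξ = (((2 : ℝ) ^ j ξ) ^ 2) ^ (-u) by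
            rw [← pow_mul, mul_comm, pow_mul, show ((2 : ℝ) ^ 2) = 4 by norm_num,
              ← Real.rpow_natCast_mul (by norm_num : (0 : ℝ) ≤ 4), mul_comm,
              Real.rpow_mul_natCast (by norm_num : (0 : ℝ) ≤ 4)]]
          exact Real.rpow_le_rpow_of_nonpos (by positivity)
            (pow_le_pow_left₀ (by positivity) (hj ξ hξT).1 2) (by linarith)
        · obtain ⟨hξT, rfl⟩ := Finset.mem_filter.1 hξ
          exact hj ξ hξT
    _ ≤ (1 - r)⁻¹ * B := by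
        rw [← Finset.sum_mul]
        exact mul_le_mul_of_nonneg_right (sum_le_hasSum _ (fun n _ => pow_nonneg hr0 n)
          (hasSum_geometric_of_lt_one hr0 hr1)) hB0
    _ ≤ 2 * B / u := by
        rw [mul_comm (2 : ℝ) B, mul_div_assoc, mul_comm]
        refine mul_le_mul_of_nonneg_left ?_ hB0
        rw [inv_le_iff_one_le_mul₀ (by linarith), div_mul_eq_mul_div, le_div_iff₀ hu0]
        linarith

end Fermat.Agent.LT.Asai.UpperBound
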