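import Fermat.Agent.LT.Asai.Restrict.Coeff
import Fermat.Agent.LT.Asai.UpperBound.Local
import Fermat.Agent.LT.Asai.UpperBound.Shell
import Fermat.Agent.LT.Whittaker.HeckeList
import Fermat.Agent.LT.Rigidity.Injective

/-!
# Partial Euler products of `∑ h_k² x^k` are `O (1 / (s - 1))`

For a field with one complex place and principal ring of integers: an idele supported at good
primes is a global generator times a unit, so the Hecke recursion turns the partial Euler product
into a piece of `∑ |N ξ|^(1-s) ‖W ξ‖²` over finitely many cosets.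
-/

set_option autoImplicit false

noncomputable section

open IsDedekindDomain WithZero
open scoped NumberField
open NumberField (InfinitePlace)

namespace Fermat.Agent.LT.Asai.UpperBound

open Places Whittaker

variable {F : Type*} [Field F] [NumberField F]

/-- A place prime to the level and to the different. -/
def IsGoodPrime (N : ℕ) (v : FinPlace F) : Prop :=
  (N : 𝓞 F) ∉ v.asIdeal ∧ ¬ differentIdeal ℤ (𝓞 F) ≤ v.asIdeal

/-- A finite place has norm greater than `1`. -/
theorem one_lt_absNorm (v : FinPlace F) : 1 < Ideal.absNorm v.asIdeal := by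
  have h0 : Ideal.absNorm v.asIdeal ≠ 0 := fun h => v.ne_bot (Ideal.absNorm_eq_zero_iff.1 h)
  have h1 : Ideal.absNorm v.asIdeal ≠ 1 := fun h => v.isPrime.ne_top (Ideal.absNorm_eq_one_iff.1 h)
  omega

theorem absNorm_pos (v : FinPlace F) : (0 : ℝ) < (Ideal.absNorm v.asIdeal : ℝ) :=
  Nat.cast_pos.2 (zero_lt_one.trans (one_lt_absNorm v))

omit [NumberField F] in
/-- With class number one every place has an integral generator. -/
theorem exists_gen [IsPrincipalIdealRing (𝓞 F)] (v : FinPlace F) :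
    ∃ g : Fˣ, ∃ o : 𝓞 F, (g : F) = o ∧ v.asIdeal = Ideal.span {o} := by
  obtain ⟨o, ho⟩ := (IsPrincipalIdealRing.principal v.asIdeal).principal
  rw [Ideal.submodule_span_eq] at ho
  have h0 : o ≠ 0 := by
    rintro rfl
    exact v.ne_bot (by rw [ho]; simp)
  exact ⟨Units.mk0 (o : F) (NumberField.RingOfIntegers.coe_ne_zero_iff.2 h0), o, rfl, ho⟩

/-- A global generator of the prime. -/
def gen [IsPrincipalIdealRing (𝓞 F)] (v : FinPlace F) : Fˣ := (exists_gen v).choose

/-- The idele `π_v / gen v`. -/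
def genUnit [IsPrincipalIdealRing (𝓞 F)] (v : FinPlace F) : (FinAdele F)ˣ :=
  piUnit v * (Rigidity.globalIdele F (gen v))⁻¹

theorem valuation_gen [IsPrincipalIdealRing (𝓞 F)] (v : FinPlace F) :
    v.valuation F (gen v : F) = exp (-1 : ℤ) ∧
      ∀ w : FinPlace F, w ≠ v → w.valuation F (gen v : F) = 1 := by
  obtain ⟨o, ho, hspan⟩ : ∃ o : 𝓞 F, (gen v : F) = o ∧ v.asIdeal = Ideal.span {o} :=
    (exists_gen v).choose_spec
  have h0 : o ≠ 0 := fun h => (gen v).ne_zero (by rw [ho, h]; simp)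
  rw [ho]
  refine ⟨(v.valuation_of_algebraMap o).trans (v.intValuation_singleton h0 hspan), fun w hw => ?_⟩
  refine (HeightOneSpectrum.valuation_eq_one_iff_notMem (K := F) w).2 fun hmem => hw ?_
  refine HeightOneSpectrum.ext (v.isMaximal.eq_of_le w.isPrime.ne_top ?_).symm
  rw [hspan, Ideal.span_le, Set.singleton_subset_iff]
  exact hmem

theorem placeVal_genUnit [IsPrincipalIdealRing (𝓞 F)] (v w : FinPlace F) :
    placeVal w (genUnit v : FinAdele F) = 1 := by
  rw [genUnit, Units.val_mul, placeVal_mul, placeVal_units_inv,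
    show ((Rigidity.globalIdele F (gen v) : (FinAdele F)ˣ) : FinAdele F) = finIncl F (gen v : F)
      from rfl, placeVal_finIncl]
  rcases eq_or_ne w v with rfl | hw
  · rw [placeVal_piUnit_same, (valuation_gen w).1, mul_inv_cancel₀ exp_ne_zero]
  · rw [placeVal_piUnit_ne hw, (valuation_gen v).2 w hw, inv_one, one_mul]

theorem sq_place_gen [NumberField.IsTotallyComplex F] [Subsingleton (InfinitePlace F)]
    [IsPrincipalIdealRing (𝓞 F)] (w : InfinitePlace F) (v : FinPlace F) :
    w (gen v : F) ^ 2 = (Ideal.absNorm v.asIdeal : ℝ) := by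
  obtain ⟨o, ho, hspan⟩ : ∃ o : 𝓞 F, (gen v : F) = o ∧ v.asIdeal = Ideal.span {o} :=
    (exists_gen v).choose_spec
  have h := InfinitePlace.prod_eq_abs_norm (gen v : F)
  have hm : w.mult = 2 := if_neg (InfinitePlace.not_isReal_iff_isComplex.2
    (NumberField.IsTotallyComplex.isComplex w))
  rw [Fintype.prod_subsingleton _ w, hm] at h
  rw [h, ho, ← Algebra.coe_norm_int, hspan, Ideal.absNorm_span_singleton, Nat.cast_natAbs]
  push_cast
  ring

theorem finite_range_dia_smul {U : Level F} (c : GLFin F ⧸ U.toSubgroup) :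
    {c' | ∃ u : (FinAdele F)ˣ, (∀ v, placeVal v (u : FinAdele F) = 1) ∧ c' = dia u • c}.Finite := by
  classical
  induction c using QuotientGroup.induction_on with
  | H x =>
  obtain ⟨N, hN, hU⟩ := U.exists_principal
  obtain ⟨M, hM, hconj⟩ := Rigidity.exists_conj_principal x hN
  obtain ⟨κ, _, cls, hcls⟩ := Reduction.exists_residue (F := F) M hM
  let good : Set (FinAdele F)ˣ := {u | ∀ v, placeVal v (u : FinAdele F) = 1}
  let rep : κ → GLFin F ⧸ U.toSubgroup := fun k =>
    if h : ∃ u ∈ good, cls (u : FinAdele F) = k then dia h.choose • (x : GLFin F ⧸ U.toSubgroup)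
    else (x : GLFin F ⧸ U.toSubgroup)
  refine (Set.finite_range rep).subset ?_
  rintro _ ⟨u, hu, rfl⟩
  refine ⟨cls (u : FinAdele F), ?_⟩
  have hex : ∃ u' ∈ good, cls (u' : FinAdele F) = cls (u : FinAdele F) := ⟨u, hu, rfl⟩
  show (if h : ∃ u' ∈ good, cls (u' : FinAdele F) = cls (u : FinAdele F) then _ else _) = _
  rw [dif_pos hex]
  obtain ⟨hu', he⟩ := hex.choose_spec
  set u' := hex.choose
  obtain ⟨hI, hI'⟩ := mem_integralUnits_iff.2 hu
  obtain ⟨hJ, hJ'⟩ := mem_integralUnits_iff.2 hu'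
  obtain ⟨z, hz, hzu⟩ := hcls _ _ hI hJ he.symm
  have hp : IsPrincipal F M (dia (u'⁻¹ * u)) := by
    intro i j
    refine ⟨if i = 0 ∧ j = 0 then ((u'⁻¹ : (FinAdele F)ˣ) : FinAdele F) * z else 0, ?_,
      if i = 0 ∧ j = 0 then -(((u⁻¹ : (FinAdele F)ˣ) : FinAdele F) * z) else 0, ?_, ?_, ?_⟩
    · split <;> simp [mul_mem hJ' hz, zero_mem]
    · split <;> simp [mul_mem hI' hz, zero_mem]
    · fin_cases i <;> fin_cases j <;> simp [dia]
      rw [hzu, mul_add, Units.inv_mul]
      ring
    · fin_cases i <;> fin_cases j <;> simp [dia]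
      rw [show (u' : FinAdele F) = (u : FinAdele F) - (M : FinAdele F) * z by rw [hzu]; ring,
        mul_sub, Units.inv_mul]
      ring
  show (QuotientGroup.mk (dia u' * x) : GLFin F ⧸ U.toSubgroup) = QuotientGroup.mk (dia u * x)
  rw [QuotientGroup.eq]
  have := hU _ (hconj _ hp)
  rwa [dia_mul, show (dia u'⁻¹ : GLFin F) = (dia u')⁻¹ from
    eq_inv_of_mul_eq_one_left (by rw [← dia_mul, inv_mul_cancel, dia_one]), mul_assoc,
    mul_assoc, ← mul_assoc x⁻¹, ← _root_.mul_inv_rev] at this

variable [NumberField.IsTotallyComplex F] {U : Level F} {φ : Y U → ℂ}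

/-- A point of the diagonal with nonzero coefficient and unit components at the good primes. -/
theorem exists_base (hφ : IsCuspEigen φ) (hne : ∃ y, φ y ≠ 0) {N : ℕ} (hN : 0 < N)
    (hgood : ∀ v : FinPlace F, (N : 𝓞 F) ∉ v.asIdeal → IsGoodAt U v)
    {lam : Ideal (𝓞 F) → ℂ} (hlam : IsHeckeEigenSystem N φ lam) :
    ∃ β : (FinAdele F)ˣ, (∀ v, IsGoodPrime N v → placeVal v (β : FinAdele F) = 1) ∧
      whit φ (dia β • ((1 : GLFin F) : GLFin F ⧸ U.toSubgroup)) ≠ 0 := by
  classical
  set c₀ : GLFin F ⧸ U.toSubgroup := ((1 : GLFin F) : GLFin F ⧸ U.toSubgroup)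
  have hd : ∀ a, Rigidity.diaCoset U a = dia a • c₀ := fun a => by
    show (QuotientGroup.mk (dia a) : GLFin F ⧸ U.toSubgroup) = QuotientGroup.mk (dia a * 1)
    rw [mul_one]
  obtain ⟨α, hα⟩ : ∃ α, whit φ (dia α • c₀) ≠ 0 := by
    by_contra hc
    push Not at hc
    obtain ⟨y, hy⟩ := hne
    exact hy (congrFun (Rigidity.eq_zero_of_whit_dia hφ fun a => by rw [hd]; exact hc a) y)
  have hle : ∀ v, IsGoodPrime N v → placeVal v (α : FinAdele F) ≤ 1 := fun v hv => by
    by_contra hlt
    push Not at hlt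
    refine hα (whit_eq_zero_of_one_lt hφ v hv.2 (fun x hx => ?_) α hlt)
    exact unip_single_smul (hgood v hv.1) (by rw [map_one]; exact one_mem _) hx
  let T := (finite_ord α).toFinset.filter fun v => IsGoodPrime N v
  let k : FinPlace F → ℕ := fun v => (ord v α).toAdd.toNat
  have hkv : ∀ v, IsGoodPrime N v → placeVal v (α : FinAdele F) = exp (-(k v : ℤ)) := fun v hv => by
    have h := hle v hv
    rw [placeVal_eq_exp_ord, ← exp_zero, exp_le_exp] at h
    rw [placeVal_eq_exp_ord, Int.toNat_of_nonneg (by omega)]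
  set P := ∏ v ∈ T, piUnit v ^ k v
  have hP : ∀ v, IsGoodPrime N v → placeVal v (P : FinAdele F) = exp (-(k v : ℤ)) := fun v hv => by
    rw [placeVal, Units.coe_prod, map_prod, map_prod, Finset.prod_eq_single v]
    · rw [Units.val_pow_eq_pow_val, map_pow, map_pow]
      refine (congrArg (· ^ k v) (placeVal_piUnit_same v)).trans ?_
      rw [← exp_nsmul]
      simp
    · intro w _ hwv
      rw [Units.val_pow_eq_pow_val, map_pow, map_pow]
      exact (congrArg (· ^ k w) (placeVal_piUnit_ne hwv.symm)).trans (one_pow _)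
    · intro hT
      have h1 : ord v α = 1 := by
        by_contra h1
        exact hT (Finset.mem_filter.2 ⟨(finite_ord α).mem_toFinset.2 h1, hv⟩)
      simp [k, h1]
  refine ⟨α * P⁻¹, fun v hv => ?_, fun h0 => hα ?_⟩
  · rw [Units.val_mul, placeVal_mul, placeVal_units_inv, hkv v hv, hP v hv,
      mul_inv_cancel₀ exp_ne_zero]
  · have hmem : ∀ v ∈ T, IsGoodPrime N v := fun v hv => (Finset.mem_filter.1 hv).2
    have h := whit_prod_pow_eigenSystem hφ hN hlam T (fun v hv => (hmem v hv).1)
      (fun v hv => hgood v (hmem v hv).1) (fun v hv => (hmem v hv).2) 1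
      (fun v _ => by rw [map_one]; exact one_mem _) (α * P⁻¹) (fun v hv => by
        rw [Units.val_mul, placeVal_mul, placeVal_units_inv, hkv v (hmem v hv), hP v (hmem v hv),
          mul_inv_cancel₀ exp_ne_zero]) k
    rwa [inv_mul_cancel_right, h0, mul_zero] at h

variable [Subsingleton (InfinitePlace F)] [IsPrincipalIdealRing (𝓞 F)]

/-- The local factor. -/
def factor (lam : Ideal (𝓞 F) → ℂ) (v : FinPlace F) (s : ℝ) (k : ℕ) : ℝ :=
  heckeSeq (asaiEig lam v) k ^ 2 * ((Ideal.absNorm v.asIdeal : ℝ) ^ (-s)) ^ k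

/-- **The partial Euler products are `O (1 / (s - 1))`**, with truncated factors. -/
theorem exists_prod_range_le (hφ : IsCuspEigen φ) (hne : ∃ y, φ y ≠ 0) {N : ℕ} (hN : 0 < N)
    (hgood : ∀ v : FinPlace F, (N : 𝓞 F) ∉ v.asIdeal → IsGoodAt U v)
    {lam : Ideal (𝓞 F) → ℂ} (hlam : IsHeckeEigenSystem N φ lam)
    (hreal : ∀ v : FinPlace F, IsGoodPrime N v → (lam v.asIdeal).im = 0) :
    ∃ C : ℝ, 0 < C ∧ ∀ s : ℝ, 1 < s → s ≤ 2 → ∀ S : Finset (FinPlace F),
      (∀ v ∈ S, IsGoodPrime N v) → ∀ K : ℕ,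
      ∏ v ∈ S, ∑ k ∈ Finset.range K, factor lam v s k ≤ C / (s - 1) := by
  classical
  obtain ⟨β, hβ, hW⟩ := exists_base hφ hne hN hgood hlam
  set c₀ : GLFin F ⧸ U.toSubgroup := ((1 : GLFin F) : GLFin F ⧸ U.toSubgroup)
  have hfin := finite_range_dia_smul (dia β • c₀)
  let w : InfinitePlace F := Classical.arbitrary _
  choose B hB0 hB using fun c : GLFin F ⧸ U.toSubgroup => exists_sum_rpow_le hφ c w
  set A := ‖whit φ (dia β • c₀)‖ ^ 2
  have hA : 0 < A := pow_pos (norm_pos_iff.2 hW) 2
  refine ⟨(∑ c ∈ hfin.toFinset, B c) / A + 1,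
    add_pos_of_nonneg_of_pos (div_nonneg (Finset.sum_nonneg fun c _ => hB0 c) hA.le) one_pos,
    fun s hs hs2 S hS K => ?_⟩
  let ext : (S → ℕ) → FinPlace F → ℕ := fun k v => if h : v ∈ S then k ⟨v, h⟩ else 0
  let ξ : (S → ℕ) → Fˣ := fun k => ∏ v ∈ S, gen v ^ ext k v
  let u : (S → ℕ) → (FinAdele F)ˣ := fun k => ∏ v ∈ S, genUnit v ^ ext k v
  let cl : (S → ℕ) → GLFin F ⧸ U.toSubgroup := fun k => dia (u k) • (dia β • c₀)
  have hu : ∀ k, cl k ∈ hfin.toFinset := fun k => hfin.mem_toFinset.2 ⟨u k, fun v => by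
    rw [placeVal, Units.coe_prod, map_prod, map_prod]
    refine Finset.prod_eq_one fun l _ => ?_
    rw [Units.val_pow_eq_pow_val, map_pow, map_pow]
    exact (congrArg (· ^ ext k l) (placeVal_genUnit l v)).trans (one_pow _), rfl⟩
  have hw2 : ∀ k, w (ξ k : F) ^ 2 = ∏ v ∈ S, (Ideal.absNorm v.asIdeal : ℝ) ^ ext k v := fun k => by
    rw [Units.coe_prod, map_prod, ← Finset.prod_pow]
    refine Finset.prod_congr rfl fun v _ => ?_
    rw [Units.val_pow_eq_pow_val, map_pow, ← pow_mul, mul_comm, pow_mul, sq_place_gen]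
  have hone : ∀ k, 1 ≤ w (ξ k : F) := fun k => by
    refine (one_le_pow_iff_of_nonneg (apply_nonneg w _) two_ne_zero).1 ?_
    rw [hw2]
    exact Finset.one_le_prod fun v _ => one_le_pow₀
      (Nat.one_le_cast.2 (one_lt_absNorm v).le)
  have hinj : Function.Injective ξ := fun k l h => by
    have key : ∀ (k : S → ℕ) (v : FinPlace F), v ∈ S →
        v.valuation F (ξ k : F) = exp (-(ext k v : ℤ)) := fun k v hv => by
      rw [Units.coe_prod, map_prod, Finset.prod_eq_single v]
      · rw [Units.val_pow_eq_pow_val, map_pow, (valuation_gen v).1, ← exp_nsmul]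
        simp
      · intro l _ hl
        rw [Units.val_pow_eq_pow_val, map_pow, (valuation_gen l).2 v hl.symm, one_pow]
      · exact fun h => absurd hv h
    funext ⟨v, hv⟩
    have h2 := (key k v hv).symm.trans ((congrArg (fun x : Fˣ => v.valuation F (x : F)) h).trans
      (key l v hv))
    rw [exp_inj] at h2
    simp only [ext, dif_pos hv] at h2
    omega
  -- the term attached to a multi-index
  have hterm : ∀ k : S → ℕ, ∏ v ∈ S, factor lam v s (ext k v) =
      (w (ξ k : F) ^ 2) ^ (-(s - 1)) * ‖whit φ (glIncl F (dia (ξ k)) • cl k)‖ ^ 2 / A := by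
    intro k
    have h := whit_prod_pow_eigenSystem hφ hN hlam S (fun v hv => (hS v hv).1)
      (fun v hv => hgood v (hS v hv).1) (fun v hv => (hS v hv).2) 1
      (fun v _ => by rw [map_one]; exact one_mem _) β (fun v hv => hβ v (hS v hv)) (ext k)
    have hcoset : dia (β * ∏ v ∈ S, piUnit v ^ ext k v) • c₀
        = glIncl F (dia (ξ k)) • cl k := by
      show _ = glIncl F (dia (ξ k)) • dia (u k) • dia β • c₀
      rw [← mul_smul, ← mul_smul, glIncl_dia,
        show Units.map (finIncl F).toMonoidHom (ξ k) = Rigidity.globalIdele F (ξ k) from rfl,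
        ← dia_mul, ← dia_mul, map_prod, ← Finset.prod_mul_distrib, mul_comm _ β]
      congr 3
      refine Finset.prod_congr rfl fun v _ => ?_
      rw [map_pow, genUnit]
      refine Eq.trans ?_ (mul_pow (Rigidity.globalIdele F (gen v))
        (piUnit v * (Rigidity.globalIdele F (gen v))⁻¹) (ext k v))
      rw [mul_comm (piUnit v), mul_inv_cancel_left]
    rw [hcoset] at h
    rw [h, norm_mul, mul_pow, norm_prod, ← Finset.prod_pow, mul_div_assoc, mul_div_assoc,
      div_self hA.ne', mul_one, hw2, ← Real.finsetProd_rpow _ _ fun v _ => by positivity,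
      ← Finset.prod_mul_distrib]
    refine Finset.prod_congr rfl fun v hv => ?_
    set q : ℝ := (Ideal.absNorm v.asIdeal : ℝ) with hq
    have hq0 : 0 < q := absNorm_pos v
    have hl : lam v.asIdeal = ((asaiEig lam v * Real.sqrt q : ℝ) : ℂ) := by
      rw [asaiEig, ← hq, div_mul_cancel₀ _ (Real.sqrt_pos.2 hq0).ne']
      exact Complex.ext rfl (by simp [hreal v (hS v hv)])
    rw [show ((Ideal.absNorm v.asIdeal : ℕ) : ℂ) = ((q : ℝ) : ℂ) by simp [hq], hl,
      heckeCoeff_eq hq0, Complex.norm_real, Real.norm_eq_abs, sq_abs, div_pow, ← pow_mul,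
      mul_comm (ext k v) 2, pow_mul, Real.sq_sqrt hq0.le, factor, ← hq,
      show (q ^ ext k v) ^ (-(s - 1)) = (q ^ (-s)) ^ ext k v * q ^ ext k v by
        rw [← mul_pow, ← Real.rpow_natCast_mul hq0.le, mul_comm (ext k v : ℝ),
          Real.rpow_mul_natCast hq0.le, show -(s - 1) = -s + 1 by ring,
          Real.rpow_add hq0, Real.rpow_one]]
    field_simp
  rw [← Finset.prod_attach, Finset.univ_eq_attach S |>.symm, Finset.prod_univ_sum]
  calc ∑ k ∈ Fintype.piFinset (fun _ : S => Finset.range K),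
        ∏ v : S, factor lam (v : FinPlace F) s (k v)
      = ∑ k ∈ Fintype.piFinset (fun _ : S => Finset.range K),
        (w (ξ k : F) ^ 2) ^ (-(s - 1)) * ‖whit φ (glIncl F (dia (ξ k)) • cl k)‖ ^ 2 / A := by
        refine Finset.sum_congr rfl fun k _ => ?_
        rw [← hterm, ← Finset.prod_attach S, Finset.univ_eq_attach]
        exact Finset.prod_congr rfl fun v _ => by simp only [ext, dif_pos v.2]
    _ = (∑ c ∈ hfin.toFinset, ∑ η ∈ ((Fintype.piFinset fun _ : S => Finset.range K).filter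
          fun k => cl k = c).image ξ,
          (w (η : F) ^ 2) ^ (-(s - 1)) * ‖whit φ (glIncl F (dia η) • c)‖ ^ 2) / A := by
        rw [← Finset.sum_div, ← Finset.sum_fiberwise_of_maps_to (g := cl) fun k _ => hu k]
        congr 1
        refine Finset.sum_congr rfl fun c _ => ?_
        rw [Finset.sum_image fun k _ l _ h => hinj h]
        exact Finset.sum_congr rfl fun k hk => by rw [(Finset.mem_filter.1 hk).2]
    _ ≤ (∑ c ∈ hfin.toFinset, B c / (s - 1)) / A := by
        refine div_le_div_of_nonneg_right (Finset.sum_le_sum fun c _ => hB c s hs hs2 _ ?_) hA.le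
        intro η hη
        obtain ⟨k, -, rfl⟩ := Finset.mem_image.1 hη
        exact hone k
    _ ≤ _ := by
        rw [← Finset.sum_div, div_right_comm]
        exact div_le_div_of_nonneg_right (le_add_of_nonneg_right zero_le_one) (by linarith)

end Fermat.Agent.LT.Asai.UpperBound
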